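import Fermat.Agent.ORD.P5.T1P
import Fermat.Agent.TOR.T1C.Main
import Fermat.Agent.GAL.KLC.Main
import Fermat.Agent.ORD.P3.Arith
import Fermat.Agent.ORD.P2.Lam

/-!
# ORD / P5 : the concrete key lemma `KL2_p` at level `M₁ p` (`p ∤ M₁`), `F = FN (M₁ p)`, `v₁ = vG`, `v₂ = vG ∘ w_p`

* `kl2p_val` : valuation form, general `λ` with `|λ|^(p-1) = |p|`, `|s₀ λ - a λ| < |λ|`.
* `kl2p`     : depth form (`P2.Dp`), `λ = ζ_p - 1`, `s₀ ζ = ζ^a`.
-/

set_option autoImplicit false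

open ModularCurve AlgebraicCurve Polynomial

noncomputable section

namespace Fermat.Agent.ORD.P5

open Fermat.Agent.GR Fermat.Agent.GAL Fermat.Agent.GAL.KL Fermat.Agent.GAL.KLC Fermat.Agent.S24
open Fermat.Agent.GR.HeckeField Fermat.Agent.TOR.GB Fermat.Agent.TOR Fermat.Agent.TOR.T1C
open Fermat.Agent.ORD.P4

section Const

variable (A : ValuationSubring Qb) (N : ℕ)

/-- the Gauss valuation on constants. -/
theorem vG_algebraMap_le_one_iff {c : Qb} : vG A N (algebraMap Qb (FL Qb N) c) ≤ 1 ↔ c ∈ A := by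
  rw [ValThm_le_one_iff]
  constructor
  · rintro ⟨zb, hzb⟩
    rw [ValThm_coe_algebraMap] at hzb
    exact ValThm_mem_of_hasRed_C A hzb
  · intro hc
    refine ⟨HahnSeries.C (IsLocalRing.residue A ⟨c, hc⟩), ?_⟩
    rw [ValThm_coe_algebraMap]
    exact hasRed_C A ⟨c, hc⟩

theorem vG_algebraMap_le_iff {c d : Qb} :
    vG A N (algebraMap Qb (FL Qb N) c) ≤ vG A N (algebraMap Qb (FL Qb N) d) ↔
      A.valuation c ≤ A.valuation d := by
  by_cases hd : d = 0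
  · subst hd
    rw [map_zero, map_zero, map_zero, le_zero_iff, le_zero_iff, Valuation.zero_iff,
      Valuation.zero_iff, map_eq_zero]
  have hd' : algebraMap Qb (FL Qb N) d ≠ 0 := (_root_.map_ne_zero _).2 hd
  have h1 : vG A N (algebraMap Qb (FL Qb N) d) ≠ 0 := (Valuation.ne_zero_iff _).2 hd'
  have h2 : A.valuation d ≠ 0 := (Valuation.ne_zero_iff _).2 hd
  rw [← div_le_one₀ (zero_lt_iff.2 h1), ← div_le_one₀ (zero_lt_iff.2 h2), ← map_div₀, ← map_div₀,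
    ← map_div₀, vG_algebraMap_le_one_iff, A.valuation_le_one_iff]

theorem vG_algebraMap_lt_iff {c d : Qb} :
    vG A N (algebraMap Qb (FL Qb N) c) < vG A N (algebraMap Qb (FL Qb N) d) ↔
      A.valuation c < A.valuation d := by
  rw [← not_le, ← not_le, vG_algebraMap_le_iff]

theorem vG_algebraMap_eq_iff {c d : Qb} :
    vG A N (algebraMap Qb (FL Qb N) c) = vG A N (algebraMap Qb (FL Qb N) d) ↔
      A.valuation c = A.valuation d := by
  rw [le_antisymm_iff, le_antisymm_iff, vG_algebraMap_le_iff, vG_algebraMap_le_iff]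

/-- `PData` for any `λ` with `|λ|^(p-1) = |p|`. -/
theorem pData_of_val [NeZero N] {p : ℕ} (hp : p.Prime) (hA : A.LiesOverPrime p) {lam : Qb}
    (hlam : A.valuation lam ^ (p - 1) = A.valuation (p : Qb)) :
    PData (vG A N) p (vG A N (algebraMap Qb (FL Qb N) lam)) where
  prime := hp
  lt := ValArch.vG_prime_lt_one A N hp hA
  ne := by exact_mod_cast hp.ne_zero
  eq := by
    rw [← map_pow, ← map_pow, ← map_natCast (algebraMap Qb (FL Qb N)) p, vG_algebraMap_eq_iff,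
      map_pow]
    exact hlam

end Const

variable (M₁ p : ℕ) [NeZero M₁] [NeZero p]

/-- **`KL2_p`, valuation form**, from the three KLC contracts at level `M₁`. -/
theorem kl2p_val_of (hp : p.Prime) (hpM : ¬ p ∣ M₁)
    (hSp : SpansStatement M₁) (hRI : RIStatement M₁)
    (A : ValuationSubring Qb) (hA : A.LiesOverPrime p) (hCT : CTStatement M₁ A)
    {s0 : GQ} (hs0 : s0 ∈ A.inertiaSubgroupIn ℚ) {lam : Qb} {a : ℕ}
    (hlam : A.valuation lam ^ (p - 1) = A.valuation (p : Qb))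
    (hsl : A.valuation (s0 lam - a * lam) < A.valuation lam)
    (W : FN (M₁ * p))
    (hW1 : vG A (M₁ * p) (W - 1) < vG A (M₁ * p) (algebraMap Qb (FL Qb (M₁ * p)) lam) ^ p)
    (hW2 : vG A (M₁ * p) (wq M₁ p W - 1) < vG A (M₁ * p) (algebraMap Qb (FL Qb (M₁ * p)) lam) ^ p)
    (hdiv : ∀ P : Place Qb (FL Qb (M₁ * p)), (p : ℤ) ∣ P.ord W) :
    ∃ y : FN (M₁ * p), y ^ p = galF (M₁ * p) s0 W / W ^ a := by
  have hchar : CharP (kA A) p := charP_residueField hp hA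
  have : ExpChar (kA A) p := ExpChar.prime hp
  have H := lvl A M₁ p hp hpM
  have X := xDat M₁ p hp A hA hSp hRI hCT
  obtain ⟨P₀, hP₀⟩ := exists_place_Q M₁
  obtain ⟨P₁, hP₁⟩ := exists_place_Q (M₁ * p)
  have C := cusp M₁ p hp hpM P₀ hP₀ P₁ hP₁
  have hArch := arch A (M₁ * p) hp hA
  have hwg : ∀ (σ : GQ) (z : FN (M₁ * p)),
      galF (M₁ * p) σ (wq M₁ p z) = wq M₁ p (galF (M₁ * p) σ z) :=
    fun σ z => (wq_galF hp hpM σ z).symm
  obtain ⟨σ, hσ⟩ := Fermat.Agent.Lib.FrobeniusExists.exists_isFrobeniusAt_rat A hp hA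
  exact thmP H X hp.two_le hArch C (semi_frob M₁ p hσ) (hwg σ) (galF_xF M₁ σ)
    (semi_inertia M₁ p hs0) (hwg s0) (galF_xF M₁ s0)
    (fun c => (vG_algebraMap_eq_iff A (M₁ * p)).2 (P3.valuation_inertia A hs0 c))
    (pData_of_val A (M₁ * p) hp hA hlam)
    ((vG_algebraMap_lt_iff A (M₁ * p)).2 hsl) hW1 hW2 hdiv

/-- **`KL2_p`, valuation form** (unconditional). -/
theorem kl2p_val (hM : AdmLevel M₁) (hp : p.Prime) (hpM : ¬ p ∣ M₁)
    (A : ValuationSubring Qb) (hA : A.LiesOverPrime p)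
    {s0 : GQ} (hs0 : s0 ∈ A.inertiaSubgroupIn ℚ) {lam : Qb} {a : ℕ}
    (hlam : A.valuation lam ^ (p - 1) = A.valuation (p : Qb))
    (hsl : A.valuation (s0 lam - a * lam) < A.valuation lam)
    (W : FN (M₁ * p))
    (hW1 : vG A (M₁ * p) (W - 1) < vG A (M₁ * p) (algebraMap Qb (FL Qb (M₁ * p)) lam) ^ p)
    (hW2 : vG A (M₁ * p) (wq M₁ p W - 1) < vG A (M₁ * p) (algebraMap Qb (FL Qb (M₁ * p)) lam) ^ p)
    (hdiv : ∀ P : Place Qb (FL Qb (M₁ * p)), (p : ℤ) ∣ P.ord W) :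
    ∃ y : FN (M₁ * p), y ^ p = galF (M₁ * p) s0 W / W ^ a :=
  kl2p_val_of M₁ p hp hpM (spansStatement M₁) (riStatement M₁) A hA
    (ctStatement M₁ p hM hp hpM A hA) hs0 hlam hsl W hW1 hW2 hdiv

/-- depth `ε 𝔪` in terms of the Gauss valuation. -/
theorem vG_sub_one_lt_of_dp (A : ValuationSubring Qb) (N : ℕ) {ε : Qb} (hε : ε ≠ 0) {W : FN N}
    (h : P2.Dp A ε (W : LaurentSeries Qb) 0) :
    vG A N (W - 1) < vG A N (algebraMap Qb (FL Qb N) ε) := by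
  have hε' : algebraMap Qb (FL Qb N) ε ≠ 0 := (_root_.map_ne_zero _).2 hε
  have h1 : vG A N (algebraMap Qb (FL Qb N) ε) ≠ 0 := (Valuation.ne_zero_iff _).2 hε'
  rw [← div_lt_one₀ (zero_lt_iff.2 h1), ← map_div₀, vG_lt_one_iff]
  have e : (((W - 1) / algebraMap Qb (FL Qb N) ε : FL Qb N) : LaurentSeries Qb)
      = ((W : LaurentSeries Qb) - 1) / HahnSeries.C ε := by
    rw [← ValThm_coe_algebraMap N ε]
    rfl
  rw [e]
  exact h

/-- **`KL2_p`, depth form.**  `ζ` a primitive `p`-th root of unity, `λ = ζ - 1`, `s₀` in the inertia group at `A ∣ p` with `s₀ ζ = ζ^a`.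
If `W ≡ 1` modulo `λ^p 𝔪` on both components and `p ∣ div W`, then `s₀ W / W^a` is a `p`-th power in `FN (M₁ p)`. -/
theorem kl2p (hM : AdmLevel M₁) (hp : p.Prime) (hpM : ¬ p ∣ M₁)
    (A : ValuationSubring Qb) (hA : A.LiesOverPrime p)
    {ζ : Qbˣ} (hζ : IsPrimitiveRoot ζ p)
    {s0 : GQ} (hs0 : s0 ∈ A.inertiaSubgroupIn ℚ) {a : ℕ} (hsζ : s0 (ζ : Qb) = (ζ : Qb) ^ a)
    (W : FN (M₁ * p))
    (hW1 : P2.Dp A (P2.lam ζ ^ p) (W : LaurentSeries Qb) 0)
    (hW2 : P2.Dp A (P2.lam ζ ^ p) ((wq M₁ p W : FN (M₁ * p)) : LaurentSeries Qb) 0)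
    (hdiv : ∀ P : Place Qb (FL Qb (M₁ * p)), (p : ℤ) ∣ P.ord W) :
    ∃ y : FN (M₁ * p), y ^ p = galF (M₁ * p) s0 W / W ^ a := by
  have hl : P2.lam ζ ≠ 0 := P2.lam_ne_zero hp hζ
  have hlp : P2.lam ζ ^ p ≠ 0 := pow_ne_zero p hl
  have hζ' : IsPrimitiveRoot (ζ : Qb) p := IsPrimitiveRoot.coe_units_iff.2 hζ
  have hlam : A.valuation (P2.lam ζ) ^ (p - 1) = A.valuation (p : Qb) :=
    (P3.valuation_natCast_eq A hp hA hζ').symm
  have hsl : A.valuation (s0 (P2.lam ζ) - a * P2.lam ζ) < A.valuation (P2.lam ζ) := by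
    have h1 := (P2.cRed_geom hp hA hζ a).sub (P2.CRed.natCast (A := A) a)
    rw [sub_self, P2.cRed_zero_iff, ValuationSubring.mem_nonunits_iff] at h1
    have h2 : s0 (P2.lam ζ) - a * P2.lam ζ
        = (((ζ : Qb) ^ a - 1) / P2.lam ζ - a) * P2.lam ζ := by
      rw [sub_mul, div_mul_cancel₀ _ hl]
      unfold P2.lam
      rw [map_sub, map_one, hsζ]
    rw [h2, map_mul]
    have h3 : A.valuation (P2.lam ζ) ≠ 0 := (Valuation.ne_zero_iff _).2 hl
    calc _ < 1 * A.valuation (P2.lam ζ) := (mul_lt_mul_iff_left₀ (zero_lt_iff.2 h3)).2 h1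
      _ = _ := one_mul _
  refine kl2p_val M₁ p hM hp hpM A hA hs0 hlam hsl W ?_ ?_ hdiv
  · have := vG_sub_one_lt_of_dp A (M₁ * p) hlp hW1
    rwa [map_pow, map_pow] at this
  · have := vG_sub_one_lt_of_dp A (M₁ * p) hlp hW2
    rwa [map_pow, map_pow] at this

end Fermat.Agent.ORD.P5
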