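import Fermat.Agent.ORD.P5.Defs
import Fermat.Agent.ORD.P4.Best

/-!
# ORD / P5-B : the sup norm distance from `x : F` to the chart ring `B_t` is attained or zero
(copy of `ORD/P4/Best.lean`: replace `v` by `NN v₁ v₂`, `ON` by `ON2`, `map_mul` + `hq1` by `S.NN_aeval_mul`; `orth`, `exists_factor`, `exists_approx_inv` are used for `v₁`)
-/

set_option autoImplicit false

namespace Fermat.Agent.ORD.P5

open Polynomial Fermat.Agent.GAL.KL Fermat.Agent.TOR.KL2 Fermat.Agent.ORD.P4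

variable {L F Γ₀ : Type*} [Field L] [Field F] [Algebra L F] [LinearOrderedCommGroupWithZero Γ₀]
variable {v₁ v₂ : Valuation F Γ₀} {t : F}

/-- the sup norm of `comb P β` is a value of `L`. -/
theorem best2_val_comb (S : Setup L v₁ v₂ t) {d : ℕ} (β : Fin d → F) (hβ : ON2 L v₁ v₂ t β)
    (P : Fin d → L[X]) : ∃ a : L, NN v₁ v₂ (comb L t P β) = v₁ (algebraMap L F a) := by
  rcases isEmpty_or_nonempty (Fin d) with hd | hd
  · refine ⟨0, ?_⟩
    simp [comb]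
  · obtain ⟨i₀, -, hmax⟩ := Finset.exists_max_image Finset.univ (fun i => v₁ (aeval t (P i)))
      Finset.univ_nonempty
    obtain ⟨a, ha⟩ := S.G1.exists_const (P i₀)
    refine ⟨a, ?_⟩
    rw [← ha]
    exact le_antisymm ((hβ P _).2 fun i => hmax i (Finset.mem_univ i)) ((hβ P _).1 le_rfl i₀)

/-- **B0.**  copy of `P4.exists_val_const`. -/
theorem exists_val_const2 (S : Setup L v₁ v₂ t) {d : ℕ} (β : Fin d → F) (hβ : ON2 L v₁ v₂ t β)
    (hβs : Spans L t β) (y : F) : ∃ a : L, NN v₁ v₂ y = v₁ (algebraMap L F a) := by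
  obtain ⟨q, P, hq, h⟩ := hβs y
  obtain ⟨a₁, ha₁⟩ := best2_val_comb S β hβ P
  obtain ⟨a₂, ha₂⟩ := S.G1.exists_const q
  have hq0 : aeval t q ≠ 0 := fun h0 => hq (S.G1.inj q h0)
  have hv0 : v₁ (aeval t q) ≠ 0 := (Valuation.ne_zero_iff v₁).2 hq0
  refine ⟨a₁ / a₂, ?_⟩
  rw [map_div₀, map_div₀, ← ha₁, ← ha₂, ← h, S.NN_aeval_mul]
  field_simp

/-- `q(t) x = comb P b` with `q` of Gauss norm one. -/
theorem best2_exists_rel (S : Setup L v₁ v₂ t) {d : ℕ} (β : Fin d → F) (hβs : Spans L t β)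
    (b : Fin d → F) (hbON : ON2 L v₁ v₂ t b) (x : F) :
    ∃ (q : L[X]) (P : Fin d → L[X]), v₁ (aeval t q) = 1 ∧ aeval t q * x = comb L t P b := by
  have hG := S.G1
  obtain ⟨i⟩ := best_nonempty hG β hβs
  obtain ⟨q₀, P₀, hq₀, hP₀⟩ := exists_matrix_of_bases hG.inj β hβs b (hbON.inj S) (fun _ => x)
  obtain ⟨a, ha⟩ := hG.exists_const q₀
  have hq₀t : aeval t q₀ ≠ 0 := fun h => hq₀ (hG.inj q₀ h)
  have hva : v₁ (algebraMap L F a) ≠ 0 := by
    rw [← ha]; exact (Valuation.ne_zero_iff v₁).2 hq₀t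
  refine ⟨C a⁻¹ * q₀, fun j => C a⁻¹ * P₀ i j, ?_, ?_⟩
  · rw [map_mul, aeval_C, map_mul, map_inv₀, map_inv₀, ha]
    exact inv_mul_cancel₀ hva
  · rw [NearOne.comb_mul_left', map_mul, mul_assoc, hP₀ i]

/-- **B1.**  copy of `P4.best_approx`. -/
theorem best_approx2 [IsAlgClosed L] (hA : Arch v₁) (S : Setup L v₁ v₂ t) {d : ℕ} (β : Fin d → F)
    (hβs : Spans L t β) (b : Fin d → F) (hb : IsBasis L t b (BB L t)) (hbON : ON2 L v₁ v₂ t b)
    (x : F) :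
    ∃ δ : Γ₀, (∀ b' : F, IsInt L t b' → δ ≤ NN v₁ v₂ (x - b')) ∧
      ∀ γ : Γ₀, γ ≠ 0 → δ ≤ γ → ∃ b' : F, IsInt L t b' ∧ NN v₁ v₂ (x - b') ≤ γ := by
  have hG := S.G1
  obtain ⟨q, P, hq1, hP⟩ := best2_exists_rel S β hβs b hbON x
  obtain ⟨q₁, q₂, c, hqq, hq₁m, hq₁1, hc, hq₂⟩ := exists_factor hG q hq1
  have hdiv : ∀ j, P j = q₁ * (P j /ₘ q₁) + P j %ₘ q₁ := fun j => by
    rw [add_comm]; exact (modByMonic_add_div (P j) q₁).symm
  have hdeg : ∀ j, (P j %ₘ q₁).degree < q₁.degree := fun j => degree_modByMonic_lt _ hq₁m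
  -- the general formula
  have key : ∀ r : Fin d → L[X], NN v₁ v₂ (x - comb L t r b)
      = NN v₁ v₂ (comb L t (fun j => P j - q * r j) b) := by
    intro r
    rw [NearOne.comb_sub', NearOne.comb_mul_left', ← hP, ← mul_sub, S.NN_aeval_mul, hq1, one_mul]
  refine ⟨NN v₁ v₂ (comb L t (fun j => P j %ₘ q₁) b), ?_, ?_⟩
  · intro b' hb'
    obtain ⟨r, rfl⟩ := (hb.2 b').1 hb'
    rw [hbON]
    intro j
    have h1 := (hbON _ _).1 (key r).ge j
    have h2 : P j - q * r j = q₁ * (P j /ₘ q₁ - q₂ * r j) + P j %ₘ q₁ := by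
      linear_combination hdiv j - r j * hqq
    rw [h2] at h1
    exact (orth hG q₁ _ _ hq₁m hq₁1 (hdeg j) _ h1).2
  · intro γ hγ hδ
    obtain ⟨i⟩ := best_nonempty hG β hβs
    obtain ⟨j₀, -, hmax⟩ := Finset.exists_max_image Finset.univ
      (fun j => v₁ (aeval t (P j /ₘ q₁))) ⟨i, Finset.mem_univ i⟩
    set R : Γ₀ := max (v₁ (aeval t (P j₀ /ₘ q₁))) 1 with hR
    have hR0 : R ≠ 0 := (lt_of_lt_of_le zero_lt_one (le_max_right _ _)).ne'
    obtain ⟨s, hs⟩ := exists_approx_inv hA q₂ c hc hq₂ (γ * R⁻¹) (mul_ne_zero hγ (inv_ne_zero hR0))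
    refine ⟨comb L t (fun j => P j /ₘ q₁ * s) b, (hb.2 _).2 ⟨_, rfl⟩, ?_⟩
    rw [key, hbON]
    intro j
    have h2 : P j - q * (P j /ₘ q₁ * s) = q₁ * (P j /ₘ q₁) * (1 - q₂ * s) + P j %ₘ q₁ := by
      linear_combination hdiv j - (P j /ₘ q₁ * s) * hqq
    rw [h2, map_add]
    refine Valuation.map_add_le v₁ ?_ (((hbON _ _).1 le_rfl j).trans hδ)
    rw [map_mul, map_mul, map_mul, map_mul, map_sub, map_one, Valuation.map_sub_swap]
    calc v₁ (aeval t q₁) * v₁ (aeval t (P j /ₘ q₁)) * v₁ (aeval t (q₂ * s) - 1)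
        ≤ 1 * R * (γ * R⁻¹) := by
          refine mul_le_mul' (mul_le_mul' hq₁1 ?_) hs.le
          exact (hmax j (Finset.mem_univ j)).trans (le_max_left _ _)
      _ = γ := by
          rw [one_mul, mul_comm γ, ← mul_assoc, mul_inv_cancel₀ hR0, one_mul]

end Fermat.Agent.ORD.P5
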