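import Fermat.Agent.ORD.P5.Defs

/-!
# ORD / P5 : binomial formulas for a prime exponent, uniform in the valuation;  `PData` for the second valuation
-/

set_option autoImplicit false

namespace Fermat.Agent.ORD.P5

open Polynomial Fermat.Agent.GAL.KL Fermat.Agent.TOR.KL2 Fermat.Agent.ORD.P4

variable {L F Γ₀ : Type*} [Field L] [Field F] [Algebra L F] [LinearOrderedCommGroupWithZero Γ₀]
variable {v₁ v₂ : Valuation F Γ₀} {t : F} {p : ℕ} {γ₀ : Γ₀}

theorem pData_snd (S : Setup L v₁ v₂ t) (D : PData v₁ p γ₀) : PData v₂ p γ₀ where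
  prime := D.prime
  lt := by rw [← S.natCast_eq]; exact D.lt
  ne := D.ne
  eq := by rw [← S.natCast_eq]; exact D.eq

/-- `(a + y)^p = a^p + y^p + p y κ`, `κ` integral for every valuation for which `a, y` are. -/
theorem binom_p2 (Γ₀ : Type*) [LinearOrderedCommGroupWithZero Γ₀] (hp : p.Prime) (a y : F) :
    ∃ κ : F, (∀ v : Valuation F Γ₀, v a ≤ 1 → v y ≤ 1 → v κ ≤ 1) ∧
      (a + y) ^ p = a ^ p + y ^ p + p * y * κ := by
  refine ⟨a * ∑ k ∈ Finset.Ioo 0 p, a ^ (k - 1) * y ^ (p - k - 1) * ((p.choose k / p : ℕ) : F),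
    ?_, ?_⟩
  · intro v ha hy
    rw [map_mul]
    refine mul_le_one' ha (Valuation.map_sum_le v fun k _ => ?_)
    rw [map_mul, map_mul, map_pow, map_pow]
    exact mul_le_one' (mul_le_one' (pow_le_one₀ zero_le ha) (pow_le_one₀ zero_le hy))
      (v_natCast_le_one _)
  · rw [add_pow_prime_eq hp a y]
    ring

/-- `(x - b)^p = x^p - b^p + p κ`. -/
theorem sub_pow_p2 (Γ₀ : Type*) [LinearOrderedCommGroupWithZero Γ₀] (hp : p.Prime) (x b : F) :
    ∃ κ : F, (∀ v : Valuation F Γ₀, v x ≤ 1 → v b ≤ 1 → v κ ≤ 1) ∧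
      (x - b) ^ p = x ^ p - b ^ p + p * κ := by
  obtain ⟨κ, hκ, h⟩ := binom_p2 Γ₀ hp x (-b)
  rcases hp.eq_two_or_odd' with rfl | hodd
  · refine ⟨-b * κ + b ^ 2, fun v hx hb => ?_, ?_⟩
    · refine Valuation.map_add_le v ?_ ?_
      · rw [map_mul, Valuation.map_neg]
        exact mul_le_one' hb (hκ v hx (by rwa [Valuation.map_neg]))
      · rw [map_pow]; exact pow_le_one₀ zero_le hb
    · rw [sub_eq_add_neg, h]; push_cast; ring
  · refine ⟨-b * κ, fun v hx hb => ?_, ?_⟩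
    · rw [map_mul, Valuation.map_neg]
      exact mul_le_one' hb (hκ v hx (by rwa [Valuation.map_neg]))
    · rw [sub_eq_add_neg, h, hodd.neg_pow]; ring

end Fermat.Agent.ORD.P5
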