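import Fermat.Agent.TOR.KL2.Basic
import Fermat.Agent.ORD.P4.Basic

/-!
# ORD / P5 : the key lemma for two valuations and `n = p` = residue characteristic (`KL2_p`).  Definitions (no sorry).

Setting of `TOR/KL2` (`Setup`, `ON2`, `Chart`, sup norm `NN`), with `v p < 1`, `γ₀ = |p|^(1/(p-1))` (`P4.PData`).

**KL2_p**: `NN (W - 1) < γ₀^p`, `p ∣ div W`, `φ` an isometric ring endomorphism preserving both chart rings with `φ X ≡ a X` modulo `< γ₀` for `NN X ≤ γ₀`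
(an inertia element `s₀` with `s₀ ζ_p = ζ_p^a`)   ⟹   `φ W / W ^ a` is a `p`-th power.

Route.
* `rcNN`        : `Chart t p` ⟹ the reduced chart ring (in `κ₁ × κ₂`) is `p`-root closed for the sup norm.
* `near_one2p`  : a section `G₀ ∈ I_t(W)`, `NN (G₀ - 1) < 1` (`KL2.near2` + `rcNN`; no gluing datum because `μ_p(k) = 1`).
* `best_approx2`: the sup-norm distance from `x` to `B_t` is attained or zero (copy of `P4.best_approx`).
* `thick2`      : `x^p ≡ b` modulo `≤ γ₀^p` ⟹ `x ≡ b'` modulo `≤ γ₀` (NON strict; no Artin-Schreier closedness: it is false at the nodes).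
* `near_lam2`   : `G ∈ I_t(W)`, `NN (G - 1) ≤ γ₀`; the same for `W⁻¹`: `G'`.
* `section2`    : `g = φ G * G' ^ a * (1 - a (G G' - 1)) ∈ I_t(φ W / W ^ a)` has `NN (g - 1) < γ₀`.
* `pow_of_near_lam2` : Newton for `n = p`, comparison, glueing (copy of `KL2.pow_of_near_one`).
-/

set_option autoImplicit false

namespace Fermat.Agent.ORD.P5

open Polynomial Fermat.Agent.GAL.KL Fermat.Agent.TOR.KL2 Fermat.Agent.ORD.P4

variable (L : Type*) {F Γ₀ : Type*} [Field L] [Field F] [Algebra L F]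
  [LinearOrderedCommGroupWithZero Γ₀]

/-- sup norm root closedness. -/
def RCNN (v₁ v₂ : Valuation F Γ₀) (t : F) (p : ℕ) : Prop :=
  ∀ x b : F, IsInt L t b → NN v₁ v₂ x ≤ 1 → NN v₁ v₂ (x ^ p - b) < 1 →
    ∃ b' : F, IsInt L t b' ∧ NN v₁ v₂ (x - b') < 1

/-- thick root closedness for the sup norm (non strict). -/
def Thick2 (v₁ v₂ : Valuation F Γ₀) (t : F) (p : ℕ) (γ₀ : Γ₀) : Prop :=
  ∀ x b : F, IsInt L t b → NN v₁ v₂ x ≤ 1 → NN v₁ v₂ (x ^ p - b) ≤ γ₀ ^ p →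
    ∃ b' : F, IsInt L t b' ∧ NN v₁ v₂ (x - b') ≤ γ₀

/-- `φ` behaves like an inertia element `s₀` with `s₀ ζ_p = ζ_p ^ a`. -/
structure InertLike (v₁ v₂ : Valuation F Γ₀) (φ : F →+* F) (a : ℕ) (γ₀ : Γ₀) : Prop where
  iso1 : ∀ x, v₁ (φ x) = v₁ x
  iso2 : ∀ x, v₂ (φ x) = v₂ x
  mul : ∀ X, NN v₁ v₂ X ≤ γ₀ → NN v₁ v₂ (φ X - a * X) < γ₀

end Fermat.Agent.ORD.P5
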