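import Fermat.Agent.ORD.P5.Binom
import Fermat.Agent.ORD.P4.Newton
import Fermat.Agent.TOR.KL2.Newton

/-!
# ORD / P5-N : Newton iteration for `n = p`, two valuations simultaneously
-/

set_option autoImplicit false

namespace Fermat.Agent.ORD.P5

open Polynomial Fermat.Agent.GAL.KL Fermat.Agent.TOR.KL2 Fermat.Agent.ORD.P4

variable {L F Γ₀ : Type*} [Field L] [Field F] [Algebra L F] [LinearOrderedCommGroupWithZero Γ₀]
variable {v₁ v₂ : Valuation F Γ₀} {t : F} {p : ℕ} {γ₀ : Γ₀}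

/-- **N0** (explicit step, one valuation; = the proof of `P4.newton_p_step`, see its docstring in ORD/P4/Newton.lean). -/
theorem newton_p_explicit' {v : Valuation F Γ₀} (D : PData v p γ₀) {w G a : F}
    (hG1 : v (G - 1) < γ₀) (h0 : v (G ^ p * w - 1) < γ₀ ^ p) (ha : v a ≤ 1)
    (h1 : v (G ^ p * w - 1) ≤ v a * v (p : F))
    (h2 : v (G ^ p * w - 1) ^ (p - 1) ≤ v a * v (p : F) ^ p) :
    v ((1 - (G ^ p * w - 1) / p) * G - 1) < γ₀ ∧
      v (((1 - (G ^ p * w - 1) / p) * G) ^ p * w - 1) ≤ v a * v (G ^ p * w - 1) := by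
  have hpF : (p : F) ≠ 0 := D.ne
  have hP : 0 < v (p : F) := zero_lt_iff.2 D.v_ne
  have hp1 : p = (p - 1) + 1 := by have := D.two_le; omega
  set ε : F := G ^ p * w - 1 with hε
  set δ : F := ε / p with hδ
  have hpδ : (p : F) * δ = ε := by
    rw [hδ]; field_simp
  have hvδ : v δ * v (p : F) = v ε := by
    rw [← map_mul, mul_comm, hpδ]
  -- the three estimates on `v δ`
  have hd1 : v δ < γ₀ := by
    rw [D.pow_eq, ← hvδ] at h0
    exact lt_of_mul_lt_mul_right h0 zero_le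
  have hd2 : v δ ≤ v a := by
    rw [← hvδ] at h1
    exact le_of_mul_le_mul_right h1 hP
  have hd3 : v δ ^ p ≤ v ε * v a := by
    have e1 : v δ ^ p * v (p : F) ^ p = v ε * v ε ^ (p - 1) := by
      rw [← mul_pow, hvδ]
      conv_lhs => rw [hp1, pow_succ']
    have e2 : v δ ^ p * v (p : F) ^ p ≤ v ε * v a * v (p : F) ^ p := by
      rw [e1, mul_assoc]
      exact mul_le_mul_right h2 _
    exact le_of_mul_le_mul_right e2 (pow_pos hP p)
  have hδ1 : v δ ≤ 1 := (hd1.trans D.γ_lt).le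
  have hε1 : v ε < 1 := h0.trans (D.pow_lt.trans D.γ_lt)
  have hGv : v G = 1 := by
    have : G = 1 + (G - 1) := by ring
    rw [this]
    exact Valuation.map_one_add_of_lt v (hG1.trans D.γ_lt)
  refine ⟨?_, ?_⟩
  · have : (1 - δ) * G - 1 = (G - 1) - δ * G := by ring
    rw [this]
    refine Valuation.map_sub_lt v hG1 ?_
    rw [map_mul, hGv, mul_one]
    exact hd1
  · obtain ⟨κ, hκ, hb⟩ := binom_p (v := v) D.prime (a := 1) (y := -δ) (le_of_eq v.map_one)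
      (by rw [Valuation.map_neg]; exact hδ1)
    have key : ((1 - δ) * G) ^ p * w - 1 =
        -(ε * ε) + ((-δ) ^ p + ε * δ * κ) * (1 + ε) := by
      have e1 : ((1 - δ) * G) ^ p * w = (1 + -δ) ^ p * (1 + ε) := by
        rw [hε, mul_pow]; ring
      rw [e1, hb, one_pow, one_pow, ← hpδ]
      ring
    rw [key]
    refine Valuation.map_add_le v ?_ ?_
    · rw [Valuation.map_neg, map_mul]
      refine mul_le_mul_left ?_ _
      exact h1.trans (mul_le_of_le_one_right' D.lt.le)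
    · rw [map_mul, Valuation.map_one_add_of_lt v hε1, mul_one]
      refine Valuation.map_add_le v ?_ ?_
      · rw [map_pow, Valuation.map_neg, mul_comm]
        exact hd3
      · rw [map_mul, map_mul, mul_comm (v a)]
        refine (mul_le_of_le_one_right' hκ).trans ?_
        exact mul_le_mul_right hd2 _

/-- **N0'** (rate).  `δ = e / p`; `a` = the one of `δ`, `δ^(p-1) / p` with the larger value. -/
theorem exists_rate' {v : Valuation F Γ₀} (D : PData v p γ₀) {e : F} (h0 : v e < γ₀ ^ p) :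
    ∃ a : F, v a < 1 ∧ v e ≤ v a * v (p : F) ∧ v e ^ (p - 1) ≤ v a * v (p : F) ^ p := by
  have hpF : (p : F) ≠ 0 := D.ne
  have hP : 0 < v (p : F) := zero_lt_iff.2 D.v_ne
  have hp1 : p = (p - 1) + 1 := by have := D.two_le; omega
  have hp0 : p - 1 ≠ 0 := by have := D.two_le; omega
  set δ : F := e / p with hδ
  have hpδ : δ * (p : F) = e := by
    rw [hδ]; field_simp
  have hvδ : v δ * v (p : F) = v e := by
    rw [← map_mul, hpδ]
  have hd1 : v δ < γ₀ := by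
    rw [D.pow_eq, ← hvδ] at h0
    exact lt_of_mul_lt_mul_right h0 zero_le
  set b : F := δ ^ (p - 1) / p with hb
  have hbp : b * (p : F) = δ ^ (p - 1) := by
    rw [hb]; field_simp
  have hvb : v b * v (p : F) = v δ ^ (p - 1) := by
    rw [← map_mul, hbp, map_pow]
  have hb1 : v b < 1 := by
    have e1 : v b * v (p : F) < 1 * v (p : F) := by
      rw [hvb, one_mul, ← D.eq]
      exact pow_lt_pow_left₀ hd1 zero_le hp0
    exact lt_of_mul_lt_mul_right e1 zero_le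
  -- the contraction factor
  obtain ⟨a, ha1, haδ, hab⟩ : ∃ a : F, v a < 1 ∧ v δ ≤ v a ∧ v b ≤ v a := by
    rcases le_total (v δ) (v b) with h | h
    · exact ⟨b, hb1, h, le_rfl⟩
    · exact ⟨δ, hd1.trans D.γ_lt, le_rfl, h⟩
  refine ⟨a, ha1, ?_, ?_⟩
  · rw [← hvδ]; exact mul_le_mul_left haδ _
  · have e1 : v e ^ (p - 1) = v b * v (p : F) ^ p := by
      have e2 : v (p : F) ^ p = v (p : F) * v (p : F) ^ (p - 1) := by
        rw [← pow_succ', ← hp1]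
      rw [← hvδ, mul_pow, ← hvb, e2, mul_assoc]
    rw [e1]; exact mul_le_mul_left hab _

/-- **N1.**  PROOF.  `ε₀ = G^p w - 1`, `v_i ε₀ < γ₀^p` (`P4.v_pow_mul_sub_one_lt`).  `a_i` from `exists_rate'` for `v_i`.  Induction on `k` (model: `KL2.newton2_iter`): `∃ G_k ∈ I`,
`v_i (G_k - 1) < γ₀`, `v_i (ε_k) ≤ v_i a_i ^ k * v_i ε₀` (the hypotheses `h0 h1 h2` persist because `v_i ε_k ≤ v_i ε₀`); step = `newton_p_explicit'` for both valuations,
membership = `KL2.newton_step_mem`.  Conclude by `hA₁ a₁`, `hA₂ a₂` with `k = max`. -/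
theorem newton2p (hA₁ : Arch v₁) (hA₂ : Arch v₂) (D₁ : PData v₁ p γ₀) (D₂ : PData v₂ p γ₀)
    {w G : F} (hG : G ∈ II L t p w) (hG1 : NN v₁ v₂ (G - 1) < γ₀)
    (hw : NN v₁ v₂ (w - 1) < γ₀ ^ p) (γ : Γ₀) (hγ : γ ≠ 0) :
    ∃ G' : F, G' ∈ II L t p w ∧ NN v₁ v₂ (G' ^ p * w - 1) < γ ∧ NN v₁ v₂ (G' - 1) < γ₀ := by
  obtain ⟨hG11, hG12⟩ := NN_lt_iff.1 hG1
  obtain ⟨hw1, hw2⟩ := NN_lt_iff.1 hw
  have h01 : v₁ (G ^ p * w - 1) < γ₀ ^ p := v_pow_mul_sub_one_lt D₁ hG11 hw1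
  have h02 : v₂ (G ^ p * w - 1) < γ₀ ^ p := v_pow_mul_sub_one_lt D₂ hG12 hw2
  obtain ⟨a₁, ha₁, H11, H12⟩ := exists_rate' D₁ h01
  obtain ⟨a₂, ha₂, H21, H22⟩ := exists_rate' D₂ h02
  have hε1 : v₁ (G ^ p * w - 1) ≤ 1 := (h01.trans (D₁.pow_lt.trans D₁.γ_lt)).le
  have hε2 : v₂ (G ^ p * w - 1) ≤ 1 := (h02.trans (D₂.pow_lt.trans D₂.γ_lt)).le
  have iter : ∀ k : ℕ, ∃ G' : F, G' ∈ II L t p w ∧ v₁ (G' - 1) < γ₀ ∧ v₂ (G' - 1) < γ₀ ∧
      v₁ (G' ^ p * w - 1) ≤ v₁ a₁ ^ k * v₁ (G ^ p * w - 1) ∧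
      v₂ (G' ^ p * w - 1) ≤ v₂ a₂ ^ k * v₂ (G ^ p * w - 1) := by
    intro k
    induction k with
    | zero => exact ⟨G, hG, hG11, hG12, by rw [pow_zero, one_mul], by rw [pow_zero, one_mul]⟩
    | succ k ih =>
      obtain ⟨G₁, hG₁, hG₁1, hG₁2, hle₁, hle₂⟩ := ih
      have hle₁' : v₁ (G₁ ^ p * w - 1) ≤ v₁ (G ^ p * w - 1) :=
        hle₁.trans (mul_le_of_le_one_left' (pow_le_one₀ zero_le ha₁.le))
      have hle₂' : v₂ (G₁ ^ p * w - 1) ≤ v₂ (G ^ p * w - 1) :=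
        hle₂.trans (mul_le_of_le_one_left' (pow_le_one₀ zero_le ha₂.le))
      obtain ⟨hs11, hs12⟩ := newton_p_explicit' D₁ hG₁1 (lt_of_le_of_lt hle₁' h01) ha₁.le
        (hle₁'.trans H11) ((pow_le_pow_left₀ zero_le hle₁' _).trans H12)
      obtain ⟨hs21, hs22⟩ := newton_p_explicit' D₂ hG₁2 (lt_of_le_of_lt hle₂' h02) ha₂.le
        (hle₂'.trans H21) ((pow_le_pow_left₀ zero_le hle₂' _).trans H22)
      refine ⟨_, newton_step_mem hG₁, hs11, hs21, hs12.trans ?_, hs22.trans ?_⟩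
      · rw [pow_succ', mul_assoc]
        exact mul_le_mul_right hle₁ _
      · rw [pow_succ', mul_assoc]
        exact mul_le_mul_right hle₂ _
  obtain ⟨m₁, hm₁⟩ := hA₁ a₁ ha₁ γ hγ
  obtain ⟨m₂, hm₂⟩ := hA₂ a₂ ha₂ γ hγ
  obtain ⟨G', hG', hG'1, hG'2, hle₁, hle₂⟩ := iter (max m₁ m₂)
  refine ⟨G', hG', NN_lt_iff.2 ⟨lt_of_le_of_lt ((hle₁.trans
    (mul_le_of_le_one_right' hε1)).trans ?_) hm₁, lt_of_le_of_lt ((hle₂.trans
    (mul_le_of_le_one_right' hε2)).trans ?_) hm₂⟩, NN_lt_iff.2 ⟨hG'1, hG'2⟩⟩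
  · exact pow_le_pow_of_le_one zero_le ha₁.le (le_max_left m₁ m₂)
  · exact pow_le_pow_of_le_one zero_le ha₂.le (le_max_right m₁ m₂)

/-- comparison of two approximate roots. -/
theorem close2p (S : Setup L v₁ v₂ t) (D₁ : PData v₁ p γ₀) (D₂ : PData v₂ p γ₀) {w a b : F}
    (hw : NN v₁ v₂ (w - 1) < 1) (ha : NN v₁ v₂ (a - 1) < γ₀) (hb : NN v₁ v₂ (b - 1) < γ₀) (γ : Γ₀)
    (ha' : NN v₁ v₂ (a ^ p * w - 1) < γ * v₁ (p : F))
    (hb' : NN v₁ v₂ (b ^ p * w - 1) < γ * v₁ (p : F)) :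
    NN v₁ v₂ (a - b) < γ :=
  NN_lt_iff.2 ⟨close_p D₁ (NN_lt_iff.1 hw).1 (NN_lt_iff.1 ha).1 (NN_lt_iff.1 hb).1 γ
      (NN_lt_iff.1 ha').1 (NN_lt_iff.1 hb').1,
    close_p D₂ (NN_lt_iff.1 hw).2 (NN_lt_iff.1 ha).2 (NN_lt_iff.1 hb).2 γ
      (by rw [← S.natCast_eq]; exact (NN_lt_iff.1 ha').2)
      (by rw [← S.natCast_eq]; exact (NN_lt_iff.1 hb').2)⟩

end Fermat.Agent.ORD.P5
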