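import Fermat.Agent.ORD.P5.Binom
import Fermat.Agent.GAL.KL.Newton

/-!
# ORD / P5-S : the section `g = φ G * G' ^ a * (1 - a (G G' - 1))` of the class `φ W / W ^ a`
-/

set_option autoImplicit false

namespace Fermat.Agent.ORD.P5

open Polynomial Fermat.Agent.GAL.KL Fermat.Agent.TOR.KL2 Fermat.Agent.ORD.P4

variable {L F Γ₀ : Type*} [Field L] [Field F] [Algebra L F] [LinearOrderedCommGroupWithZero Γ₀]
variable {v₁ v₂ : Valuation F Γ₀} {t : F} {p : ℕ} {γ₀ : Γ₀}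

/-- **S0.**  for one valuation: `v (W - 1) < γ ≤ 1` and `v (φ x) = v x` imply `v (φ W / W ^ a - 1) < γ`.
`φ W - 1 = φ (W - 1)`; `W^a - 1 = (W - 1) ∑ W^j`, `v W = 1`; `φ W / W^a - 1 = ((φ W - 1) - (W^a - 1)) / W^a`. -/
theorem v_frob_div_sub_one_lt {v : Valuation F Γ₀} {φ : F →+* F} (hiso : ∀ x, v (φ x) = v x)
    (a : ℕ) {W : F} {γ : Γ₀} (hγ : γ ≤ 1) (h : v (W - 1) < γ) : v (φ W / W ^ a - 1) < γ := by
  have hW1 : v W = 1 := by
    have h1 : W = 1 + (W - 1) := by ring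
    rw [h1]
    exact Valuation.map_one_add_of_lt v (lt_of_lt_of_le h hγ)
  have hWa : v (W ^ a) = 1 := by rw [map_pow, hW1, one_pow]
  have hWa0 : W ^ a ≠ 0 := by
    intro h0
    rw [h0, map_zero] at hWa
    exact zero_ne_one hWa
  have hpow : ∀ n : ℕ, v (W ^ n - 1) < γ := by
    intro n
    induction n with
    | zero =>
      rw [pow_zero, sub_self, map_zero]
      exact lt_of_le_of_lt zero_le h
    | succ n ih =>
      have h2 : W ^ (n + 1) - 1 = W * (W ^ n - 1) + (W - 1) := by ring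
      rw [h2]
      refine Valuation.map_add_lt v ?_ h
      rw [map_mul, hW1, one_mul]
      exact ih
  have hφ : v (φ W - 1) < γ := by
    have h2 : φ W - 1 = φ (W - 1) := by rw [map_sub, map_one]
    rw [h2, hiso]
    exact h
  have h3 : φ W / W ^ a - 1 = ((φ W - 1) - (W ^ a - 1)) / W ^ a := by
    field_simp
    ring
  rw [h3, map_div₀, hWa, div_one]
  exact Valuation.map_sub_lt v hφ (hpow a)

/-- **S1.**  for one valuation, `0 < γ₀ < 1`: `X = G - 1`, `X' = G' - 1`, `v X, v X' ≤ γ₀`, `v (φ X - a X) < γ₀`.  Then `v (φ G * G'^a * (1 - a (G G' - 1)) - 1) < γ₀`.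
PROOF.  `G'^a = 1 + a X' + X'² κ` (`KL.newton_binom`, GAL/KL/Newton.lean), `φ G = 1 + a X + η`, `v η < γ₀`, `G G' - 1 = X + X' + X X'`.  Expand: everything except `1` is either a multiple of
`η` or a product of two of `X, X'` with integral coefficients, of value `≤ γ₀² < γ₀`.  (Suggestion: write `φ G * G'^a = 1 + a (X + X') + r₁`, `v r₁ < γ₀`;
`1 - a (G G' - 1) = 1 - a (X + X') + r₂`, `v r₂ < γ₀`; `(1 + s + r₁)(1 - s + r₂) - 1 = -s² + r₁ (1 - s + r₂) + r₂ (1 + s)`, `v s ≤ γ₀`.) -/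
theorem v_section_sub_one_lt {v : Valuation F Γ₀} (h0 : γ₀ ≠ 0) (h1 : γ₀ < 1) {φ : F →+* F} (a : ℕ)
    {G G' : F} (hG : v (G - 1) ≤ γ₀) (hG' : v (G' - 1) ≤ γ₀)
    (hφ : v (φ (G - 1) - a * (G - 1)) < γ₀) :
    v (φ G * G' ^ a * (1 - a * (G * G' - 1)) - 1) < γ₀ := by
  obtain ⟨X, rfl⟩ : ∃ X, G = 1 + X := ⟨G - 1, by ring⟩
  obtain ⟨X', rfl⟩ : ∃ X', G' = 1 + X' := ⟨G' - 1, by ring⟩
  rw [add_sub_cancel_left] at hG hG' hφ
  have hpos : 0 < γ₀ := zero_lt_iff.2 h0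
  have hX : X ∈ v.integer := hG.trans h1.le
  have hX' : X' ∈ v.integer := hG'.trans h1.le
  have hA : (a : F) ∈ v.integer := v_natCast_le_one a
  obtain ⟨κ, hκ', hb⟩ := newton_binom (v := v) (x := X') (hG'.trans h1.le) a
  have hκ : κ ∈ v.integer := hκ'
  set η : F := φ X - a * X with hη
  have hφX : φ X = a * X + η := by rw [hη]; ring
  have h1O : (1 : F) ∈ v.integer := v.integer.one_mem
  have hT : 1 + (a : F) * X' + X' ^ 2 * κ ∈ v.integer :=
    v.integer.add_mem (v.integer.add_mem h1O (v.integer.mul_mem hA hX'))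
      (v.integer.mul_mem (v.integer.pow_mem hX' 2) hκ)
  have hU : 1 - (a : F) * ((1 + X) * (1 + X') - 1) ∈ v.integer :=
    v.integer.sub_mem h1O (v.integer.mul_mem hA (v.integer.sub_mem
      (v.integer.mul_mem (v.integer.add_mem h1O hX) (v.integer.add_mem h1O hX')) h1O))
  have hsq : ∀ y z : F, v y ≤ γ₀ → v z ≤ γ₀ → v (y * z) < γ₀ := by
    intro y z hy hz
    rw [map_mul]
    calc v y * v z ≤ γ₀ * γ₀ := mul_le_mul' hy hz
      _ < γ₀ * 1 := mul_lt_mul_of_pos_left h1 hpos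
      _ = γ₀ := mul_one _
  have hmul : ∀ y c : F, v y < γ₀ → c ∈ v.integer → v (y * c) < γ₀ := by
    intro y c hy hc
    rw [map_mul]
    exact lt_of_le_of_lt (mul_le_of_le_one_right' hc) hy
  have hXX' : v (X + X') ≤ γ₀ := Valuation.map_add_le v hG hG'
  have key : φ (1 + X) * (1 + X') ^ a * (1 - a * ((1 + X) * (1 + X') - 1)) - 1
      = η * ((1 + (a : F) * X' + X' ^ 2 * κ) * (1 - (a : F) * ((1 + X) * (1 + X') - 1)))
        + (X * X') * ((a : F) ^ 2 * (1 - (a : F) * ((1 + X) * (1 + X') - 1)))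
        + (X' * X') * (κ * (1 + (a : F) * X) * (1 - (a : F) * ((1 + X) * (1 + X') - 1)))
        + ((X + X') * (X + X')) * (-(a : F) ^ 2)
        + (X * X') * (-((a : F) * (1 + (a : F) * (X + X')))) := by
    rw [map_add, map_one, hφX, hb]
    ring
  rw [key]
  refine Valuation.map_add_lt v (Valuation.map_add_lt v (Valuation.map_add_lt v
    (Valuation.map_add_lt v ?_ ?_) ?_) ?_) ?_
  · exact hmul _ _ hφ (v.integer.mul_mem hT hU)
  · exact hmul _ _ (hsq _ _ hG hG') (v.integer.mul_mem (v.integer.pow_mem hA 2) hU)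
  · exact hmul _ _ (hsq _ _ hG' hG') (v.integer.mul_mem (v.integer.mul_mem hκ
      (v.integer.add_mem h1O (v.integer.mul_mem hA hX))) hU)
  · exact hmul _ _ (hsq _ _ hXX' hXX') (v.integer.neg_mem (v.integer.pow_mem hA 2))
  · exact hmul _ _ (hsq _ _ hG hG') (v.integer.neg_mem (v.integer.mul_mem hA
      (v.integer.add_mem h1O (v.integer.mul_mem hA (v.integer.add_mem hX hX')))))

/-- **S2.**  membership: `G G' ∈ B` (`IsInt.of_pow`: `(G G')^p = (G^p W)(G'^p W⁻¹)`);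
`(φ G * G'^a * u)^p * (φ W / W^a) = φ (G^p W) * (G'^p W⁻¹)^a * u^p`, `u = 1 - a (G G' - 1) ∈ B`  (cf. `hg` in `KL2.near_one_frob`, TOR/KL2/Frob.lean).  Norm: `v_section_sub_one_lt` twice. -/
theorem section2 (D : PData v₁ p γ₀) (φ : F →+* F) (a : ℕ) (hφ : InertLike v₁ v₂ φ a γ₀)
    (hint : ∀ x, IsInt L t x → IsInt L t (φ x)) {W G G' : F} (hW0 : W ≠ 0)
    (hG : G ∈ II L t p W) (hG' : G' ∈ II L t p W⁻¹)
    (h1 : NN v₁ v₂ (G - 1) ≤ γ₀) (h1' : NN v₁ v₂ (G' - 1) ≤ γ₀) :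
    ∃ g ∈ II L t p (φ W / W ^ a), NN v₁ v₂ (g - 1) < γ₀ := by
  have hG₀ : IsInt L t (G ^ p * W) := hG
  have hG₀' : IsInt L t (G' ^ p * W⁻¹) := hG'
  have hGG' : IsInt L t (G * G') := by
    apply IsInt.of_pow D.prime.pos
    have h2 : (G * G') ^ p = (G ^ p * W) * (G' ^ p * W⁻¹) := by
      field_simp
      ring
    rw [h2]
    exact hG₀.mul hG₀'
  have hu : IsInt L t (1 - (a : F) * (G * G' - 1)) :=
    IsInt.one.sub ((IsInt.natCast a).mul (hGG'.sub IsInt.one))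
  refine ⟨φ G * G' ^ a * (1 - a * (G * G' - 1)), ?_, ?_⟩
  · show IsInt L t ((φ G * G' ^ a * (1 - a * (G * G' - 1))) ^ p * (φ W / W ^ a))
    have h2 : (φ G * G' ^ a * (1 - a * (G * G' - 1))) ^ p * (φ W / W ^ a)
        = φ (G ^ p * W) * (G' ^ p * W⁻¹) ^ a * (1 - a * (G * G' - 1)) ^ p := by
      rw [map_mul, map_pow, mul_pow, mul_pow, mul_pow, inv_pow, ← pow_mul, ← pow_mul,
        mul_comm a p, div_eq_mul_inv]
      ring
    rw [h2]
    exact ((hint _ hG₀).mul (hG₀'.pow a)).mul (hu.pow p)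
  · have hm := NN_lt_iff.1 (hφ.mul (G - 1) h1)
    have hle := NN_le_iff.1 h1
    have hle' := NN_le_iff.1 h1'
    exact NN_lt_iff.2 ⟨v_section_sub_one_lt D.γ_ne D.γ_lt a hle.1 hle'.1 hm.1,
      v_section_sub_one_lt D.γ_ne D.γ_lt a hle.2 hle'.2 hm.2⟩

end Fermat.Agent.ORD.P5
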