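import Fermat.Agent.ORD.P5.Best2
import Fermat.Agent.ORD.P5.Binom
import Fermat.Agent.TOR.KL2.ONBasis

/-!
# ORD / P5-T : thick root closedness for the sup norm;  `G ≡ 1 mod 𝔪` ⟹ `G ≡ 1 mod λ`
-/

set_option autoImplicit false

namespace Fermat.Agent.ORD.P5

open Polynomial Fermat.Agent.GAL.KL Fermat.Agent.TOR.KL2 Fermat.Agent.ORD.P4

variable {L F Γ₀ : Type*} [Field L] [Field F] [Algebra L F] [LinearOrderedCommGroupWithZero Γ₀]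
variable {v₁ v₂ : Valuation F Γ₀} {t : F} {p : ℕ} {γ₀ : Γ₀}

/-- **T1.**  Model: `P4.thick_of_asClosed` (Fermat/Agent/ORD/P4/Thick.lean), simpler.
PROOF.  `e` = ON2 basis of `B` (`exists_ON2_basis`), `δ` from `best_approx2`.  If `δ ≤ γ₀`: upper bound with `γ = γ₀`.  Suppose `γ₀ < δ`.
`b₀ ∈ B`, `NN (x - b₀) = δ ≤ NN x ≤ 1`; `y = x - b₀`, `NN b₀ ≤ 1`; `a : L`, `v₁ a = v₂ a = δ` (`exists_val_const2`, `S.eqL`), `α = algebraMap a`, `θ = α⁻¹ y`, `NN θ = 1` (`S.NN_algebraMap_mul`).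
`binom_p2`: `x^p = b₀^p + y^p + p y κ`, `NN κ ≤ 1`.  `b₂ = (α^p)⁻¹ (b - b₀^p) ∈ B`;  `θ^p - b₂ = (α^p)⁻¹ ((x^p - b) - p y κ)`;
`NN (x^p - b) ≤ γ₀^p < δ^p`;  `v_i (p y κ) ≤ v p * δ = γ₀^(p-1) δ < δ^p`.  `hRC θ b₂`: `b'' ∈ B`, `NN (θ - b'') < 1`; `NN (x - (b₀ + α b'')) = δ NN (θ - b'') < δ`: contradiction. -/
theorem thick2_of_rcNN [IsAlgClosed L] (hA : Arch v₁) (S : Setup L v₁ v₂ t) {d : ℕ} (β : Fin d → F)
    (hβ : ON2 L v₁ v₂ t β) (hβs : Spans L t β) (b : Fin d → F) (hb : IsBasis L t b (BB L t))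
    (D : PData v₁ p γ₀) (hRC : RCNN L v₁ v₂ t p) : Thick2 L v₁ v₂ t p γ₀ := by
  intro x b₁ hb₁ hx hxb
  obtain ⟨e, he, heON⟩ := exists_ON2_basis S β hβ hβs _ b hb
  obtain ⟨δ, hlow, hup⟩ := best_approx2 hA S β hβs e he heON x
  by_cases hδ : δ ≤ γ₀
  · exact hup γ₀ D.γ_ne hδ
  exfalso
  rw [not_le] at hδ
  have h2 := D.two_le
  have hp0 : p ≠ 0 := D.prime.ne_zero
  have hδ0 : δ ≠ 0 := (lt_of_le_of_lt zero_le hδ).ne'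
  obtain ⟨b₀, hb₀, h⟩ := hup δ hδ0 le_rfl
  have hy : NN v₁ v₂ (x - b₀) = δ := le_antisymm h (hlow b₀ hb₀)
  have hδ1 : δ ≤ 1 := (hlow 0 IsInt.zero).trans (by rwa [sub_zero])
  obtain ⟨y, hydef⟩ : ∃ y, y = x - b₀ := ⟨_, rfl⟩
  rw [← hydef] at hy
  have hxy : b₀ + y = x := by rw [hydef]; ring
  have hvy1 : NN v₁ v₂ y ≤ 1 := hy ▸ hδ1
  have hvb₀ : NN v₁ v₂ b₀ ≤ 1 := by
    have : b₀ = x - y := by rw [hydef]; ring
    rw [this]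
    exact NN_sub_le' hx hvy1
  obtain ⟨a, ha⟩ := exists_val_const2 S β hβ hβs y
  have hva : v₁ (algebraMap L F a) = δ := by rw [← ha, hy]
  have hα0 : algebraMap L F a ≠ 0 := (Valuation.ne_zero_iff v₁).1 (by rw [hva]; exact hδ0)
  obtain ⟨κ, hκ, hbin⟩ := binom_p2 Γ₀ D.prime b₀ y
  rw [hxy] at hbin
  have hκN : NN v₁ v₂ κ ≤ 1 := NN_le_iff.2
    ⟨hκ v₁ (NN_le_iff.1 hvb₀).1 (NN_le_iff.1 hvy1).1, hκ v₂ (NN_le_iff.1 hvb₀).2 (NN_le_iff.1 hvy1).2⟩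
  have hb₂ : IsInt L t (algebraMap L F ((a ^ p)⁻¹) * (b₁ - b₀ ^ p)) :=
    (IsInt.algebraMap _).mul (hb₁.sub (hb₀.pow _))
  have hvθ : NN v₁ v₂ (algebraMap L F a⁻¹ * y) ≤ 1 := by
    rw [S.NN_algebraMap_mul, map_inv₀, map_inv₀, hva, hy, inv_mul_cancel₀ hδ0]
  have hid : (algebraMap L F a⁻¹ * y) ^ p - algebraMap L F ((a ^ p)⁻¹) * (b₁ - b₀ ^ p)
      = algebraMap L F ((a ^ p)⁻¹) * ((x ^ p - b₁) - algebraMap L F (p : L) * (y * κ)) := by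
    rw [hbin, mul_pow, map_inv₀, map_inv₀, map_pow, inv_pow, map_natCast]
    ring
  have hvp : v₁ (p : F) < δ ^ (p - 1) := by
    rw [← D.eq]
    exact pow_lt_pow_left₀ hδ zero_le (by omega)
  have hsmall : NN v₁ v₂ ((x ^ p - b₁) - algebraMap L F (p : L) * (y * κ)) < δ ^ p := by
    refine NN_sub_lt ?_ ?_
    · exact hxb.trans_lt (pow_lt_pow_left₀ hδ zero_le hp0)
    · rw [S.NN_algebraMap_mul, map_natCast]
      have hpp : δ ^ p = δ ^ (p - 1) * δ := by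
        rw [← pow_succ]; congr 1; omega
      rw [hpp]
      have h3 : NN v₁ v₂ (y * κ) ≤ δ := by
        calc NN v₁ v₂ (y * κ) ≤ NN v₁ v₂ y * NN v₁ v₂ κ := NN_mul_le _ _
          _ ≤ δ * 1 := mul_le_mul' hy.le hκN
          _ = δ := mul_one _
      calc v₁ (p : F) * NN v₁ v₂ (y * κ) ≤ v₁ (p : F) * δ := mul_le_mul' le_rfl h3
        _ < δ ^ (p - 1) * δ := mul_lt_mul_of_pos_right hvp (zero_lt_iff.2 hδ0)
  obtain ⟨b'', hb'', hlt⟩ := hRC (algebraMap L F a⁻¹ * y) _ hb₂ hvθ (by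
    rw [hid, S.NN_algebraMap_mul, map_inv₀, map_inv₀, map_pow, map_pow, hva]
    calc (δ ^ p)⁻¹ * NN v₁ v₂ ((x ^ p - b₁) - algebraMap L F (p : L) * (y * κ))
        < (δ ^ p)⁻¹ * δ ^ p :=
          mul_lt_mul_of_pos_left hsmall (zero_lt_iff.2 (inv_ne_zero (pow_ne_zero _ hδ0)))
      _ = 1 := inv_mul_cancel₀ (pow_ne_zero _ hδ0))
  have hb₃ : IsInt L t (b₀ + algebraMap L F a * b'') := hb₀.add ((IsInt.algebraMap _).mul hb'')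
  have h4 : x - (b₀ + algebraMap L F a * b'')
      = algebraMap L F a * (algebraMap L F a⁻¹ * y - b'') := by
    rw [mul_sub, ← mul_assoc, map_inv₀, mul_inv_cancel₀ hα0, one_mul, hydef]; ring
  have h5 := hlow _ hb₃
  rw [h4, S.NN_algebraMap_mul, hva] at h5
  have h6 : δ * NN v₁ v₂ (algebraMap L F a⁻¹ * y - b'') < δ * 1 :=
    mul_lt_mul_of_pos_left hlt (zero_lt_iff.2 hδ0)
  rw [mul_one] at h6
  exact absurd h5 (not_le.2 h6)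

/-- **T2.**  Model: `P4.near_lam`.  PROOF.  `v_i G = 1`.  `hT` for `x = G`, `b = G^p w` (`G^p - G^p w = -G^p (w - 1)`): `b' ∈ B`, `NN (G - b') ≤ γ₀`, so `NN (1 - b') < 1`.
`hA₁`, `hA₂`: `v_i (1 - b') ^ K < γ₀` for a common `K` (max; `pow_le_pow_of_le_one`).  `c = ∑ k < K, (1 - b')^k ∈ B`, `NN c ≤ 1`, `c b' = 1 - (1 - b')^K`.
`G₁ = c G`: `G₁ - 1 = c (G - b') - (1 - b')^K`. -/
theorem near_lam2 (hA₁ : Arch v₁) (hA₂ : Arch v₂) (D : PData v₁ p γ₀)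
    (hT : Thick2 L v₁ v₂ t p γ₀) {w G : F} (hG : G ∈ II L t p w) (hG1 : NN v₁ v₂ (G - 1) < 1)
    (hw : NN v₁ v₂ (w - 1) ≤ γ₀ ^ p) :
    ∃ G₁ : F, G₁ ∈ II L t p w ∧ NN v₁ v₂ (G₁ - 1) ≤ γ₀ := by
  have hGN : NN v₁ v₂ G ≤ 1 := by
    have : G = (G - 1) + 1 := by ring
    rw [this]
    exact NN_add_le' hG1.le NN_one.le
  have hGp : NN v₁ v₂ (G ^ p) ≤ 1 := by
    rw [NN_le_iff, map_pow, map_pow]
    exact ⟨pow_le_one₀ zero_le (NN_le_iff.1 hGN).1, pow_le_one₀ zero_le (NN_le_iff.1 hGN).2⟩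
  have h1 : NN v₁ v₂ (G ^ p - G ^ p * w) ≤ γ₀ ^ p := by
    have : G ^ p - G ^ p * w = -(G ^ p * (w - 1)) := by ring
    rw [this, NN_neg]
    calc NN v₁ v₂ (G ^ p * (w - 1)) ≤ NN v₁ v₂ (G ^ p) * NN v₁ v₂ (w - 1) := NN_mul_le _ _
      _ ≤ 1 * γ₀ ^ p := mul_le_mul' hGp hw
      _ = γ₀ ^ p := one_mul _
  obtain ⟨b', hb', hGb⟩ := hT G (G ^ p * w) hG hGN h1
  have h2 : NN v₁ v₂ (1 - b') < 1 := by
    have : 1 - b' = (G - b') - (G - 1) := by ring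
    rw [this]
    exact NN_sub_lt (hGb.trans_lt D.γ_lt) hG1
  obtain ⟨K₁, hK₁⟩ := hA₁ (1 - b') (NN_lt_iff.1 h2).1 γ₀ D.γ_ne
  obtain ⟨K₂, hK₂⟩ := hA₂ (1 - b') (NN_lt_iff.1 h2).2 γ₀ D.γ_ne
  obtain ⟨K, hKdef⟩ : ∃ K, K = max K₁ K₂ := ⟨_, rfl⟩
  have hK : NN v₁ v₂ ((1 - b') ^ K) ≤ γ₀ := by
    rw [NN_le_iff, map_pow, map_pow]
    exact ⟨(pow_le_pow_of_le_one zero_le (NN_lt_iff.1 h2).1.le
        (hKdef ▸ le_max_left K₁ K₂)).trans hK₁.le,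
      (pow_le_pow_of_le_one zero_le (NN_lt_iff.1 h2).2.le
        (hKdef ▸ le_max_right K₁ K₂)).trans hK₂.le⟩
  set c : F := ∑ k ∈ Finset.range K, (1 - b') ^ k with hc
  have hcI : IsInt L t c := IsInt.sum _ _ fun k _ => (IsInt.one.sub hb').pow k
  have hcv : NN v₁ v₂ c ≤ 1 := by
    refine NN_sum_le _ _ fun k _ => ?_
    rw [NN_le_iff, map_pow, map_pow]
    exact ⟨pow_le_one₀ zero_le (NN_lt_iff.1 h2).1.le, pow_le_one₀ zero_le (NN_lt_iff.1 h2).2.le⟩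
  have hcb : b' * c = 1 - (1 - b') ^ K := by
    have := mul_neg_geom_sum (1 - b') K
    rwa [sub_sub_cancel] at this
  refine ⟨c * G, II.mul hcI hG, ?_⟩
  have h3 : c * G - 1 = c * (G - b') - (1 - b') ^ K := by
    have : c * G - 1 = c * (G - b') + (b' * c - 1) := by ring
    rw [this, hcb]; ring
  rw [h3]
  refine NN_sub_le' ?_ hK
  calc NN v₁ v₂ (c * (G - b')) ≤ NN v₁ v₂ c * NN v₁ v₂ (G - b') := NN_mul_le _ _
    _ ≤ 1 * γ₀ := mul_le_mul' hcv hGb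
    _ = γ₀ := one_mul _

end Fermat.Agent.ORD.P5
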