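import Fermat.Agent.ORD.P5.RC
import Fermat.Agent.ORD.P5.Thick2
import Fermat.Agent.ORD.P5.Sect
import Fermat.Agent.ORD.P5.Newton2
import Fermat.Agent.TOR.KL2.Main

/-!
# ORD / P5 : the key lemma `KL2_p` (assembly)
-/

set_option autoImplicit false

namespace Fermat.Agent.ORD.P5

open Polynomial Fermat.Agent.GAL.KL Fermat.Agent.TOR.KL2 Fermat.Agent.ORD.P4

variable {L F Γ₀ : Type*} [Field L] [Field F] [Algebra L F] [LinearOrderedCommGroupWithZero Γ₀]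
variable {v₁ v₂ : Valuation F Γ₀} {t : F} {p : ℕ} {γ₀ : Γ₀}

/-- If `NN (w - 1) < γ₀^p` and both charts carry a section `≡ 1` modulo `< γ₀` of the class of `w`, then `w` is a `p`-th power. -/
theorem pow_of_near_lam2 [IsAlgClosed L] (hA₁ : Arch v₁) (hA₂ : Arch v₂) (S : Setup L v₁ v₂ t)
    {d : ℕ} (β : Fin d → F) (hβ : ON2 L v₁ v₂ t β) (hβs : Spans L t β)
    (b0 : Fin d → F) (hb0 : IsBasis L t b0 (BB L t))
    (boo : Fin d → F) (hboo : IsBasis L t⁻¹ boo (BB L t⁻¹))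
    (D : PData v₁ p γ₀)
    {w : F} (hw : NN v₁ v₂ (w - 1) < γ₀ ^ p)
    (h0 : ∃ G ∈ II L t p w, NN v₁ v₂ (G - 1) < γ₀)
    (hoo : ∃ G ∈ II L t⁻¹ p w, NN v₁ v₂ (G - 1) < γ₀) :
    ∃ y : F, y ^ p = w := by
  have hn : 0 < p := D.prime.pos
  have D₂ : PData v₂ p γ₀ := pData_snd S D
  have hw1 : NN v₁ v₂ (w - 1) < 1 := hw.trans (D.pow_lt.trans D.γ_lt)
  have hG := S.G1
  have ht : t ≠ 0 := hG.ne_zero
  have hGi : Gauss L v₁ t⁻¹ := hG.inv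
  have Si : Setup L v₁ v₂ t⁻¹ := S.inv
  have hβi : ON2 L v₁ v₂ t⁻¹ β := hβ.inv S
  have hβsi : Spans L t⁻¹ β := hβs.inv ht
  have hvw : v₁ w = 1 := v_eq_one_of_sub_one_lt' (NN_lt_iff.1 hw1).1
  have hw0 : w ≠ 0 := fun h => by rw [h, map_zero] at hvw; exact zero_ne_one hvw
  -- orthonormal bases of the two lattices
  obtain ⟨a, ha⟩ := exists_basis_II hG.inj β hβs b0 hb0 hn hw0
  obtain ⟨e, he, heON⟩ := exists_ON2_basis S β hβ hβs _ a ha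
  obtain ⟨a', ha'⟩ := exists_basis_II hGi.inj β hβsi boo hboo hn hw0
  obtain ⟨e', he', he'ON⟩ := exists_ON2_basis Si β hβi hβsi _ a' ha'
  -- shifts
  have hemem : ∀ i, e i ∈ II L t p w := fun i =>
    (he.2 (e i)).mpr ⟨Pi.single i 1, by
      simp [comb, Pi.single_apply, Finset.sum_ite_eq']⟩
  have hshift : ∃ s : ℕ, ∀ i, (t⁻¹) ^ s * e i ∈ II L t⁻¹ p w := by
    have h1 : ∀ i, ∃ m₀ : ℕ, ∀ m, m₀ ≤ m → (t⁻¹) ^ m * e i ∈ II L t⁻¹ p w := fun i =>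
      II.shift (t := t⁻¹) (inv_ne_zero ht) hn (by rw [inv_inv]; exact hemem i)
    choose m₀ hm₀ using h1
    exact ⟨Finset.univ.sup m₀, fun i => hm₀ i _ (Finset.le_sup (Finset.mem_univ i))⟩
  obtain ⟨s, hs⟩ := hshift
  obtain ⟨g0, hg0, hg01⟩ := h0
  obtain ⟨goo, hgoo, hgoo1⟩ := hoo
  -- a global section
  obtain ⟨y, hy0, hy1, hy2⟩ := exists_global2 S (II L t p w) (II L t⁻¹ p w) e e' he he' he'ON s hs s
    (by
      intro γ hγ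
      have hγ' : min γ 1 * v₁ (p : F) ≠ 0 := mul_ne_zero
        (by rcases min_choice γ 1 with h | h <;> rw [h]; exacts [hγ, one_ne_zero]) D.v_ne
      obtain ⟨G0, hG0, hG0γ, hG01⟩ := newton2p hA₁ hA₂ D D₂ hg0 hg01 hw _ hγ'
      obtain ⟨Goo, hGoo, hGooγ, hGoo1⟩ := newton2p hA₁ hA₂ D D₂ hgoo hgoo1 hw _ hγ'
      have hclose : NN v₁ v₂ (G0 - Goo) < min γ 1 :=
        close2p S D D₂ hw1 hG01 hGoo1 _ hG0γ hGooγ
      have hxm : ∃ m : ℕ, t ^ m * (G0 - Goo) ∈ II L t p w := by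
        obtain ⟨m₀, hm₀⟩ := II.shift ht hn hGoo
        refine ⟨m₀, ?_⟩
        rw [mul_sub]
        refine II.sub hn (II.mul ?_ hG0) (hm₀ m₀ le_rfl)
        have := IsInt.aeval (L := L) (t := t) (X ^ m₀)
        simpa using this
      obtain ⟨x0, z, hxz, hx0, hz, hvx0, hvz⟩ :=
        split2 S (II L t p w) (II L t⁻¹ p w) e e' he heON he' s hs (G0 - Goo) _ hclose hxm
      refine ⟨G0 - x0, Goo, z, II.sub hn hG0 hx0, hGoo, hz, ?_, lt_of_lt_of_le hvz (min_le_left _ _), ?_⟩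
      · rw [sub_eq_iff_eq_add] at hxz
        rw [hxz]; ring
      · apply NN_eq_one_of_sub_one_lt
        have h1 : G0 - x0 - 1 = (G0 - 1) - x0 := by ring
        rw [h1]
        exact NN_sub_lt (hG01.trans D.γ_lt) (lt_of_lt_of_le hvx0 (min_le_right _ _)))
  -- conclusion
  obtain ⟨c, hc⟩ := const_of_isInt_both hG.inj hy1 hy2
  have hc0 : c ≠ 0 := by
    rintro rfl
    rw [map_zero] at hc
    exact (mul_ne_zero (pow_ne_zero p hy0) hw0) hc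
  obtain ⟨c₁, hc₁⟩ := IsAlgClosed.exists_pow_nat_eq c hn
  have hc₁0 : c₁ ≠ 0 := by
    rintro rfl
    rw [zero_pow hn.ne'] at hc₁
    exact hc0 hc₁.symm
  refine ⟨algebraMap L F c₁ / y, ?_⟩
  rw [div_pow, ← map_pow, hc₁, ← hc]
  field_simp

/-- the section `≡ 1` modulo `< γ₀` of the class `φ W / W ^ a`, in one chart. -/
theorem near_lam_frob [IsAlgClosed L] (hA₁ : Arch v₁) (hA₂ : Arch v₂) (S : Setup L v₁ v₂ t)
    {d : ℕ} (β : Fin d → F) (hβ : ON2 L v₁ v₂ t β) (hβs : Spans L t β)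
    (b : Fin d → F) (hb : IsBasis L t b (BB L t)) (D : PData v₁ p γ₀)
    (hC : Chart L v₁ v₂ t p) (φ : F →+* F) (a : ℕ) (hφ : InertLike v₁ v₂ φ a γ₀)
    (hint : ∀ x, IsInt L t x → IsInt L t (φ x))
    {W : F} (hW : NN v₁ v₂ (W - 1) < γ₀ ^ p) (hU : ∀ c : L, LocPow L t p W c) :
    ∃ g ∈ II L t p (φ W / W ^ a), NN v₁ v₂ (g - 1) < γ₀ := by
  have hγ1 : γ₀ ^ p < 1 := D.pow_lt.trans D.γ_lt
  have hW1 : NN v₁ v₂ (W - 1) < 1 := hW.trans hγ1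
  obtain ⟨hW11, hW12⟩ := NN_lt_iff.1 hW1
  have hvW1 := v_eq_one_of_sub_one_lt' hW11
  have hvW2 := v_eq_one_of_sub_one_lt' hW12
  have hW0 : W ≠ 0 := fun h0 => by rw [h0, map_zero] at hvW1; exact zero_ne_one hvW1
  have hinv : ∀ v : Valuation F Γ₀, v W = 1 → v (W⁻¹ - 1) = v (W - 1) := by
    intro v hv
    have h1 : W⁻¹ - 1 = -(W⁻¹ * (W - 1)) := by field_simp; ring
    rw [h1, Valuation.map_neg, map_mul, map_inv₀, hv, inv_one, one_mul]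
  have hWi : NN v₁ v₂ (W⁻¹ - 1) < γ₀ ^ p := by
    rw [NN, hinv v₁ hvW1, hinv v₂ hvW2]; exact hW
  have hT := thick2_of_rcNN hA₁ S β hβ hβs b hb D (rcNN_of_chart S D hC)
  obtain ⟨G₀, hG₀, hG₀1⟩ := near_one2p S β hβ hβs b hb D hW1 hC hU
  obtain ⟨G, hG, hG1⟩ := near_lam2 hA₁ hA₂ D hT hG₀ hG₀1 hW.le
  obtain ⟨G₀', hG₀', hG₀'1⟩ := near_one2p S β hβ hβs b hb D (hWi.trans hγ1) hC
    (fun c => locPow_inv (hU c))
  obtain ⟨G', hG', hG'1⟩ := near_lam2 hA₁ hA₂ D hT hG₀' hG₀'1 hWi.le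
  exact section2 D φ a hφ hint hW0 hG hG' hG1 hG'1

/-- **KEY LEMMA `KL2_p`.**  `L` algebraically closed of characteristic zero, `v₁ v₂` rank one valuations of `F`, both Gauss on `L[t]`,
`β` an `L(t)`-basis of `F`, orthonormal for the sup norm; `0 < |p| < 1`, `γ₀ = |p|^(1/(p-1))`; both reduced charts have two `p`-root closed branches crossing at a
reduced conductor; `φ` is an isometric ring endomorphism preserving both chart rings with `φ X ≡ a X` modulo `< γ₀` for `NN X ≤ γ₀`.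
If `NN (W - 1) < γ₀^p` and `p ∣ div W`, then `φ W / W ^ a` is a `p`-th power in `F`. -/
theorem keyLemma2P [IsAlgClosed L] [CharZero L] (hA₁ : Arch v₁) (hA₂ : Arch v₂)
    (S : Setup L v₁ v₂ t) {d : ℕ} (β : Fin d → F) (hβ : ON2 L v₁ v₂ t β) (hβs : Spans L t β)
    (D : PData v₁ p γ₀)
    (hC0 : Chart L v₁ v₂ t p) (hCoo : Chart L v₁ v₂ t⁻¹ p)
    (φ : F →+* F) (a : ℕ) (hφ : InertLike v₁ v₂ φ a γ₀)
    (hint0 : ∀ x, IsInt L t x → IsInt L t (φ x)) (hintoo : ∀ x, IsInt L t⁻¹ x → IsInt L t⁻¹ (φ x))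
    {W : F} (hW : NN v₁ v₂ (W - 1) < γ₀ ^ p)
    (hU0 : ∀ c : L, LocPow L t p W c) (hUoo : ∀ c : L, LocPow L t⁻¹ p W c) :
    ∃ y : F, y ^ p = φ W / W ^ a := by
  have hG := S.G1
  have hγ1 : γ₀ ^ p ≤ 1 := (D.pow_lt.trans D.γ_lt).le
  obtain ⟨b0, hb0⟩ := exists_basis_BB hG.inj β (hβ.inj S) hβs
  obtain ⟨boo, hboo⟩ := exists_basis_BB hG.inv.inj β ((hβ.inv S).inj S.inv) (hβs.inv hG.ne_zero)
  exact pow_of_near_lam2 hA₁ hA₂ S β hβ hβs b0 hb0 boo hboo D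
    (NN_lt_iff.2 ⟨v_frob_div_sub_one_lt hφ.iso1 a hγ1 (NN_lt_iff.1 hW).1,
      v_frob_div_sub_one_lt hφ.iso2 a hγ1 (NN_lt_iff.1 hW).2⟩)
    (near_lam_frob hA₁ hA₂ S β hβ hβs b0 hb0 D hC0 φ a hφ hint0 hW hU0)
    (near_lam_frob hA₁ hA₂ S.inv β (hβ.inv S) (hβs.inv hG.ne_zero) boo hboo D hCoo φ a hφ hintoo hW
      hUoo)

end Fermat.Agent.ORD.P5
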