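import Fermat.Agent.ORD.P5.Binom
import Fermat.Agent.TOR.KL2.NearOne2

/-!
# ORD / P5-R : sup norm root closedness from `Chart t p`, and the section `≡ 1` for `n = p`
-/

set_option autoImplicit false

namespace Fermat.Agent.ORD.P5

open Polynomial Fermat.Agent.GAL.KL Fermat.Agent.TOR.KL2 Fermat.Agent.ORD.P4

variable {L F Γ₀ : Type*} [Field L] [Field F] [Algebra L F] [LinearOrderedCommGroupWithZero Γ₀]
variable {v₁ v₂ : Valuation F Γ₀} {t : F} {p : ℕ} {γ₀ : Γ₀}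

/-- **R1.**  PROOF.  Let `x, b` be given; `NN b ≤ 1` (`b = x^p - (x^p - b)`).  `hC.rc1 x b`: `b' ∈ B`, `v₂ b' ≤ 1`, `v₁ (x - b') < 1` (so `v₁ b' ≤ 1`).
`x₂ = x - b'`: `v₁ x₂ < 1`, `v₂ x₂ ≤ 1`.  `sub_pow_p2`: `x₂^p = x^p - b'^p + p κ`, `NN κ ≤ 1`, so with `b₁ = b - b'^p ∈ B`: `NN (x₂^p - b₁) < 1`, `NN b₁ ≤ 1`, and
`v₁ b₁ < 1` (because `v₁ (x₂^p) < 1`).  `hC.rc2 x₂ b₁`: `b'' ∈ B`, `v₁ b'' ≤ 1`, `v₂ (x₂ - b'') < 1`.  Then `Cond L v₂ v₁ t (b'' ^ p)` with witness `b₁`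
(`v₂ (b''^p - b₁) < 1` by `NearOne.congr_pow`).  `hC.rad.symm`: `c' ∈ B`, `v₂ (b'' - c') < 1`, `v₁ c' < 1`.  Answer: `b' + c'`. -/
theorem rcNN_of_chart (S : Setup L v₁ v₂ t) (D : PData v₁ p γ₀) (hC : Chart L v₁ v₂ t p) :
    RCNN L v₁ v₂ t p := by
  intro x b hb hx hxb
  have hp0 : 0 < p := D.prime.pos
  have D2 := pData_snd S D
  obtain ⟨hx1, hx2⟩ := NN_le_iff.1 hx
  obtain ⟨hxb1, hxb2⟩ := NN_lt_iff.1 hxb
  have hxp : NN v₁ v₂ (x ^ p) ≤ 1 := by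
    rw [NN_le_iff, map_pow, map_pow]
    exact ⟨pow_le_one₀ zero_le hx1, pow_le_one₀ zero_le hx2⟩
  have hbN : NN v₁ v₂ b ≤ 1 := by
    have : b = x ^ p - (x ^ p - b) := by ring
    rw [this]
    exact NN_sub_le' hxp hxb.le
  obtain ⟨hb1, hb2⟩ := NN_le_iff.1 hbN
  obtain ⟨b', hb', hb'2, hxb'⟩ := hC.rc1 x b hb hb1 hb2 hxb1 hx1
  have hb'1 : v₁ b' ≤ 1 := by
    have : b' = x - (x - b') := by ring
    rw [this]
    exact (Valuation.map_sub v₁ _ _).trans (max_le hx1 hxb'.le)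
  have hx₂2 : v₂ (x - b') ≤ 1 := (Valuation.map_sub v₂ _ _).trans (max_le hx2 hb'2)
  obtain ⟨κ, hκ, hbin⟩ := sub_pow_p2 Γ₀ D.prime x b'
  have hκ1 := hκ v₁ hx1 hb'1
  have hκ2 := hκ v₂ hx2 hb'2
  have hb₁ : IsInt L t (b - b' ^ p) := hb.sub (hb'.pow p)
  have hid : (x - b') ^ p - (b - b' ^ p) = (x ^ p - b) + p * κ := by rw [hbin]; ring
  have hd1 : v₁ ((x - b') ^ p - (b - b' ^ p)) < 1 := by
    rw [hid]
    refine Valuation.map_add_lt v₁ hxb1 ?_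
    rw [map_mul]
    exact mul_lt_one_of_lt_of_le D.lt hκ1
  have hd2 : v₂ ((x - b') ^ p - (b - b' ^ p)) < 1 := by
    rw [hid]
    refine Valuation.map_add_lt v₂ hxb2 ?_
    rw [map_mul]
    exact mul_lt_one_of_lt_of_le D2.lt hκ2
  have hb₁1 : v₁ (b - b' ^ p) < 1 := by
    have : b - b' ^ p = (x - b') ^ p - ((x - b') ^ p - (b - b' ^ p)) := by ring
    rw [this]
    refine Valuation.map_sub_lt v₁ ?_ hd1
    rw [map_pow]
    exact pow_lt_one₀ zero_le hxb' hp0.ne'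
  have hb₁2 : v₂ (b - b' ^ p) ≤ 1 := by
    refine (Valuation.map_sub v₂ _ _).trans (max_le hb2 ?_)
    rw [map_pow]
    exact pow_le_one₀ zero_le hb'2
  obtain ⟨b'', hb'', hb''1, hxb''⟩ := hC.rc2 (x - b') (b - b' ^ p) hb₁ hb₁2 hb₁1.le hd2 hx₂2
  have hb''2 : v₂ b'' ≤ 1 := by
    have : b'' = (x - b') - ((x - b') - b'') := by ring
    rw [this]
    exact (Valuation.map_sub v₂ _ _).trans (max_le hx₂2 hxb''.le)
  have hcond : Cond L v₂ v₁ t (b'' ^ p) := by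
    refine ⟨b - b' ^ p, hb₁, ?_, hb₁1⟩
    have : b'' ^ p - (b - b' ^ p)
        = (b'' ^ p - (x - b') ^ p) + ((x - b') ^ p - (b - b' ^ p)) := by ring
    rw [this]
    refine Valuation.map_add_lt v₂ ?_ hd2
    exact NearOne.congr_pow (by rwa [Valuation.map_sub_swap]) hb''2 hx₂2 p hp0
  obtain ⟨c', hc', hc'2, hc'1⟩ := hC.rad.symm b'' p hp0 hb'' hb''2 hb''1 hcond
  refine ⟨b' + c', hb'.add hc', ?_⟩
  rw [NN_lt_iff]
  constructor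
  · have : x - (b' + c') = (x - b') - c' := by ring
    rw [this]
    exact Valuation.map_sub_lt v₁ hxb' hc'1
  · have : x - (b' + c') = ((x - b') - b'') + (b'' - c') := by ring
    rw [this]
    exact Valuation.map_add_lt v₂ hxb'' hc'2

/-- **R2.**  PROOF.  `(near2 ..).2 1`: `x ∈ I`, `NN x ≤ 1`, `v₁ (x - 1) < 1`.  `rcNN_of_chart` for `x`, `b = x^p w` (`x^p - x^p w = -x^p (w - 1)`): `b' ∈ B`, `NN (x - b') < 1`.
`c = 1 - b' ∈ B`, `v₁ c < 1`, `v₂ c ≤ 1`.  `(near2 ..).1 c`: `x' ∈ I`, `NN (x' - c) < 1`.  `G = x + x'` (`II.add`): `G - 1 = (x - b') + (x' - c)`. -/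
theorem near_one2p [IsAlgClosed L] (S : Setup L v₁ v₂ t) {d : ℕ} (β : Fin d → F)
    (hβ : ON2 L v₁ v₂ t β) (hβs : Spans L t β) (b : Fin d → F) (hb : IsBasis L t b (BB L t))
    (D : PData v₁ p γ₀) {w : F} (hw : NN v₁ v₂ (w - 1) < 1) (hC : Chart L v₁ v₂ t p)
    (hU : ∀ c : L, LocPow L t p w c) :
    ∃ G ∈ II L t p w, NN v₁ v₂ (G - 1) < 1 := by
  have hp0 : 0 < p := D.prime.pos
  have hn2 := near2 S β hβ hβs b hb hp0 hw hC hU
  obtain ⟨x, hxI, hxN, hx1⟩ := hn2.2 1 IsInt.one (le_of_eq NN_one)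
  obtain ⟨hxv1, hxv2⟩ := NN_le_iff.1 hxN
  have h1 : NN v₁ v₂ (x ^ p - x ^ p * w) < 1 := by
    have : x ^ p - x ^ p * w = -(x ^ p * (w - 1)) := by ring
    rw [this, NN_neg]
    refine lt_of_le_of_lt (NN_mul_le _ _) ?_
    refine lt_of_le_of_lt (mul_le_of_le_one_left' ?_) hw
    rw [NN_le_iff, map_pow, map_pow]
    exact ⟨pow_le_one₀ zero_le hxv1, pow_le_one₀ zero_le hxv2⟩
  obtain ⟨b', hb', hxb'⟩ := rcNN_of_chart S D hC x (x ^ p * w) hxI hxN h1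
  obtain ⟨hxb'1, hxb'2⟩ := NN_lt_iff.1 hxb'
  have hc1 : v₁ (1 - b') < 1 := by
    have : 1 - b' = (x - b') - (x - 1) := by ring
    rw [this]
    exact Valuation.map_sub_lt v₁ hxb'1 hx1
  have hc2 : v₂ (1 - b') ≤ 1 := by
    have : 1 - b' = (x - b') + (1 - x) := by ring
    rw [this]
    refine Valuation.map_add_le v₂ hxb'2.le ?_
    exact (Valuation.map_sub v₂ _ _).trans (max_le (le_of_eq v₂.map_one) hxv2)
  obtain ⟨x', hx'I, hx'⟩ := hn2.1 (1 - b') (IsInt.one.sub hb') hc1 hc2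
  refine ⟨x + x', II.add hp0 hxI hx'I, ?_⟩
  have : x + x' - 1 = (x - b') + (x' - (1 - b')) := by ring
  rw [this]
  exact NN_add_lt hxb' hx'

end Fermat.Agent.ORD.P5
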