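import Fermat.Agent.TOR.T1.Main
import Fermat.Agent.ORD.P5.Main

/-!
# ORD / P5 : `KL2_p` for the abstract two-level datum of `TOR/T1` (`n = q = p`)
-/

set_option autoImplicit false

open Polynomial ModularCurve AlgebraicCurve

noncomputable section

namespace Fermat.Agent.ORD.P5

open Fermat.Agent.GAL.KL Fermat.Agent.GAL.KLC Fermat.Agent.TOR.KL2 Fermat.Agent.S24.FF
open Fermat.Agent.GAL Fermat.Agent.TOR.T1 Fermat.Agent.ORD.P4

variable {K F₀ F k Γ' Γ₀ : Type*} [Field K] [Field F₀] [Field F] [Algebra K F₀]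
  [Algebra K F] [Field k] [LinearOrderedCommGroupWithZero Γ'] [LinearOrderedCommGroupWithZero Γ₀]
  {v₀ : Valuation F₀ Γ'} {ρ₀ : v₀.integer →+* LaurentSeries k} {v : Valuation F Γ₀}
  {ρ : v.integer →+* LaurentSeries k} {α β : F₀ →ₐ[K] F} {w : F ≃ₐ[K] F} {q : ℕ} [NeZero q]
  {x x' : F₀} {ξ ξ' : LaurentSeries k} {m : ℕ}

variable {tK : K ≃+* K} {t₀ : F₀ ≃+* F₀} {tF : F ≃+* F}

/-- a semilinear automorphism compatible with the reductions which is isometric on the constants is isometric. -/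
theorem semi_iso {Fr : LaurentSeries k →+* LaurentSeries k} (hρ : IsRed K v ρ)
    (ht : Semi ρ₀ ρ α β tK t₀ tF Fr)
    (hiso : ∀ c : K, v (algebraMap K F (tK c)) = v (algebraMap K F c)) (z : F) :
    v (tF z) = v z := by
  by_cases hz : z = 0
  · rw [hz, map_zero]
  obtain ⟨c, hc⟩ := hρ.val z hz
  have hvz : v z ≠ 0 := (Valuation.ne_zero_iff _).2 hz
  have hvc : v (algebraMap K F c) ≠ 0 := hc ▸ hvz
  have hc0 : algebraMap K F c ≠ 0 := (Valuation.ne_zero_iff _).1 hvc
  have h1 : v (z / algebraMap K F c) ≤ 1 := by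
    rw [map_div₀, hc, div_self hvc]
  have h2 : v (algebraMap K F c / z) ≤ 1 := by
    rw [map_div₀, hc, div_self hvc]
  have h3 := ht.le_one h1
  have h4 := ht.le_one h2
  rw [map_div₀, map_div₀, ht.sK, hiso] at h3 h4
  have hvt : v (tF z) ≠ 0 := (Valuation.ne_zero_iff _).2 ((map_ne_zero tF).2 hz)
  rw [div_le_one₀ (zero_lt_iff.2 hvc)] at h3
  rw [div_le_one₀ (zero_lt_iff.2 hvt)] at h4
  rw [hc]
  exact le_antisymm h3 h4

/-- one valuation: `v X ≤ |λ|` ⟹ `v (τ X - a X) < |λ|`, if `τ` is inert and `τ λ ≡ a λ`. -/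
theorem semi_mul_lt (hρ : IsRed K v ρ) (ht : Semi ρ₀ ρ α β tK t₀ tF (RingHom.id _))
    {lam : K} {a : ℕ}
    (hlam : v (algebraMap K F (tK lam - a * lam)) < v (algebraMap K F lam)) {X : F}
    (hX : v X ≤ v (algebraMap K F lam)) :
    v (tF X - a * X) < v (algebraMap K F lam) := by
  set l : F := algebraMap K F lam with hl
  have hvl : v l ≠ 0 := fun h => by rw [h] at hlam; exact not_lt_zero hlam
  have hl0 : l ≠ 0 := (Valuation.ne_zero_iff _).1 hvl
  set θ : F := X / l with hθ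
  have hXθ : X = l * θ := by rw [hθ]; field_simp
  have hθ1 : v θ ≤ 1 := by
    rw [hθ, map_div₀]
    exact (div_le_one₀ (zero_lt_iff.2 hvl)).2 hX
  obtain ⟨φ, hφ⟩ := exists_rd (ρ := ρ) hθ1
  have h1 : v (tF θ - θ) < 1 := (ht.ρs _ _ hφ).sub_lt hρ hφ
  have h2 : v (tF θ) ≤ 1 := ht.le_one hθ1
  have h3 : tF l - a * l = algebraMap K F (tK lam - a * lam) := by
    rw [hl, ht.sK, map_sub, map_mul, map_natCast]
  have h4 : tF X - a * X = (tF l - a * l) * tF θ + a * l * (tF θ - θ) := by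
    rw [hXθ, map_mul]; ring
  rw [h4]
  refine Valuation.map_add_lt v ?_ ?_
  · rw [map_mul, h3]
    calc v (algebraMap K F (tK lam - a * lam)) * v (tF θ)
        ≤ v (algebraMap K F (tK lam - a * lam)) * 1 := mul_le_mul_right h2 _
      _ < v l := by rw [mul_one]; exact hlam
  · rw [map_mul, map_mul]
    have h5 : v (a : F) ≤ 1 := v_natCast_le_one _
    calc v (a : F) * v l * v (tF θ - θ) ≤ 1 * v l * v (tF θ - θ) :=
          mul_le_mul_left (mul_le_mul_left h5 _) _
      _ = v l * v (tF θ - θ) := by rw [one_mul]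
      _ < v l * 1 := (mul_lt_mul_iff_right₀ (zero_lt_iff.2 hvl)).2 h1
      _ = v l := mul_one _

/-- inertia is `InertLike`. -/
theorem inertLike_of_semi (H : Lvl K ρ₀ ρ α β w q)
    (ht : Semi ρ₀ ρ α β tK t₀ tF (RingHom.id _)) (htw : ∀ z, tF (w z) = w (tF z))
    (hiso : ∀ c : K, v (algebraMap K F (tK c)) = v (algebraMap K F c))
    {lam : K} {a : ℕ}
    (hlam : v (algebraMap K F (tK lam - a * lam)) < v (algebraMap K F lam)) :
    InertLike v (vw K v w) (tF : F →+* F) a (v (algebraMap K F lam)) where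
  iso1 := fun z => semi_iso H.red ht hiso z
  iso2 := fun z => by
    show v (w (tF z)) = v (w z)
    rw [← htw]
    exact semi_iso H.red ht hiso (w z)
  mul := fun X hX => by
    rw [NN_le_iff] at hX
    rw [NN_lt_iff]
    refine ⟨semi_mul_lt H.red ht hlam hX.1, ?_⟩
    show v (w (tF X - a * X)) < _
    rw [map_sub, map_mul, map_natCast, ← htw]
    exact semi_mul_lt H.red ht hlam hX.2

variable [IsAlgClosed K] [CharZero K] [IsFF1 K F₀] [IsFF1 K F]
variable {sK : K ≃+* K} {s₀ : F₀ ≃+* F₀} {s : F ≃+* F}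

/-- **`KL2_p`, abstract two-level form.** -/
theorem thmP [ExpChar k q] (H : Lvl K ρ₀ ρ α β w q) (X : XDat K ρ₀ x x' ξ ξ' m q)
    (hq : 2 ≤ q) (hA : Arch v) {P₀ : Place K F₀} {P₁ : Place K F} (C : Cusp α β x m q P₀ P₁)
    (hs : Semi ρ₀ ρ α β sK s₀ s (coeffMap (frobenius k q))) (hsw : ∀ z, s (w z) = w (s z))
    (hsx : s₀ x = x)
    (ht : Semi ρ₀ ρ α β tK t₀ tF (RingHom.id _)) (htw : ∀ z, tF (w z) = w (tF z))
    (htx : t₀ x = x)
    (hiso : ∀ c : K, v (algebraMap K F (tK c)) = v (algebraMap K F c))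
    {lam : K} {a : ℕ} (D : PData v q (v (algebraMap K F lam)))
    (hlam : v (algebraMap K F (tK lam - a * lam)) < v (algebraMap K F lam))
    {W : F} (hW1 : v (W - 1) < v (algebraMap K F lam) ^ q)
    (hW2 : v (w W - 1) < v (algebraMap K F lam) ^ q)
    (hdiv : ∀ P : Place K F, (q : ℤ) ∣ P.ord W) :
    ∃ y : F, y ^ q = tF W / W ^ a := by
  have hn : 0 < q := by omega
  have S := setup H X
  have htr := transcendental_tt H X
  have htr' : Transcendental K (tt α β x)⁻¹ := transcendental_inv htr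
  have hW0 : W ≠ 0 := by
    rintro rfl
    rw [zero_sub, Valuation.map_neg, map_one] at hW1
    exact lt_irrefl _ (hW1.trans (D.pow_lt.trans D.γ_lt))
  have hNN : NN v (vw K v w) (W - 1) < v (algebraMap K F lam) ^ q := by
    rw [NN_lt_iff]
    refine ⟨hW1, ?_⟩
    rw [vw_apply, map_sub, map_one]
    exact hW2
  exact keyLemma2P hA (arch_vw hA w) S _ (on2_ee H X hq) (spans_ee H X hq C) D
    (chart_t H X hq hA C hs hsw hsx hn) (chart_t_inv H X hq hA C hs hsw hsx hn) (tF : F →+* F) a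
    (inertLike_of_semi H ht htw hiso hlam)
    (fun y hy => isInt_map (tF : F →+* F) (tK : K →+* K) ht.sK (ht.s_tt htx) hy)
    (fun y hy => isInt_map (tF : F →+* F) (tK : K →+* K) ht.sK
      (by rw [map_inv₀]; exact congrArg _ (ht.s_tt htx)) hy)
    hNN
    (fun c => locPow_of_dvd htr hn hW0 hdiv c) (fun c => locPow_of_dvd htr' hn hW0 hdiv c)

end Fermat.Agent.ORD.P5
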